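/-
Lib/EtaUnit (architect helper213).  Definitions for `G₄ = η(2τ)¹⁰ / (η(τ) η(4τ))⁴ = θ(τ)²`,
`θ = ∑ q^(n²)`: weight one on `Γ₀(4)`, character `χ₋₄`, no zeros on `ℍ`.
-/
import Fermat.Agent.Lib.EtaUnit.Eta.Quot

set_option autoImplicit false

namespace Fermat.Agent.Lib.EtaUnit

open UpperHalfPlane

local notation "η" => ModularForm.eta

/-- `G₄` as a function of a complex variable. -/
noncomputable def G4c (z : ℂ) : ℂ := η (2 * z) ^ 10 / (η z ^ 4 * η (4 * z) ^ 4)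

/-- `G₄` on the upper half plane. -/
noncomputable def G4 (τ : ℍ) : ℂ := G4c τ

/-- The character `χ₋₄` on `ℤ`. -/
def chi4 (d : ℤ) : ℤ := ZMod.χ₄ (d : ZMod 4)

/-- The exponents of `G₄` as an eta quotient indexed by `{1, 2, 4} ⊆ ℕ`. -/
def r4 (i : ℕ) : ℤ := if i = 2 then 10 else -4

end Fermat.Agent.Lib.EtaUnit
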