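/-
Lib/EtaUnit (architect helper213).  TASK EU-23.
SKELETON FILE: statements are frozen interfaces; the task owner replaces every `sorry`.
-/
import Fermat.Agent.Lib.EtaUnit.G4.Defs

set_option autoImplicit false

namespace Fermat.Agent.Lib.EtaUnit

open CongruenceSubgroup
open scoped MatrixGroups

theorem chi4_one : chi4 1 = 1 := by
  unfold chi4
  rw [Int.cast_one, map_one]

theorem chi4_neg_one : chi4 (-1) = -1 := by
  unfold chi4
  rw [Int.cast_neg, Int.cast_one]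
  decide

theorem chi4_mul (m n : ℤ) : chi4 (m * n) = chi4 m * chi4 n := by
  unfold chi4
  rw [Int.cast_mul, map_mul]

theorem chi4_per (m n : ℤ) (h : ((4 : ℕ) : ℤ) ∣ m - n) : chi4 m = chi4 n := by
  unfold chi4
  rw [((ZMod.intCast_eq_intCast_iff_dvd_sub n m 4).2 h)]

theorem chi4_sq_aux : ∀ x y : ZMod 4, y * x = 1 → ZMod.χ₄ x * ZMod.χ₄ x = 1 := by
  decide

theorem chi4_sq (m : ℤ) (h : IsCoprime m ((4 : ℕ) : ℤ)) : chi4 m * chi4 m = 1 := by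
  obtain ⟨a, b, hab⟩ := h
  unfold chi4
  apply chi4_sq_aux _ (a : ZMod 4)
  have e := congrArg (Int.cast : ℤ → ZMod 4) hab
  push_cast at e
  have h4 : (4 : ZMod 4) = 0 := by decide
  rw [h4, mul_zero, add_zero] at e
  exact e

/-- the lower right entry of a product in `Γ₀(4)`, modulo `4`. -/
theorem chi4_mul_entry (γ γ' : Gamma0 4) :
    chi4 (((γ * γ' : Gamma0 4) : SL(2, ℤ)) 1 1) =
      chi4 ((γ : SL(2, ℤ)) 1 1) * chi4 ((γ' : SL(2, ℤ)) 1 1) := by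
  rw [← chi4_mul]
  apply chi4_per
  have hγ : (((γ : SL(2, ℤ)) 1 0 : ℤ) : ZMod 4) = 0 := Gamma0_mem.1 γ.2
  have hd : ((4 : ℕ) : ℤ) ∣ (γ : SL(2, ℤ)) 1 0 := (ZMod.intCast_zmod_eq_zero_iff_dvd _ 4).1 hγ
  rw [Subgroup.coe_mul, Matrix.SpecialLinearGroup.coe_mul, Matrix.mul_apply, Fin.sum_univ_two,
    add_sub_cancel_right]
  exact Dvd.dvd.mul_right hd _

/-- `γ ↦ χ₋₄(d)` is a character of `Γ₀(4)` (`d(γ γ') = c b' + d d' ≡ d d' mod 4`; `d` is odd). -/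
theorem exists_psi4 : ∃ ψ : Gamma0 4 →* ℂˣ, ∀ γ : Gamma0 4,
    ((ψ γ : ℂˣ) : ℂ) = (chi4 ((γ : SL(2, ℤ)) 1 1) : ℂ) := by
  let φ : Gamma0 4 →* ℂ :=
    { toFun := fun γ => (chi4 ((γ : SL(2, ℤ)) 1 1) : ℂ)
      map_one' := by
        show ((chi4 (((1 : Gamma0 4) : SL(2, ℤ)) 1 1) : ℤ) : ℂ) = 1
        rw [Subgroup.coe_one, Matrix.SpecialLinearGroup.coe_one, Matrix.one_apply_eq, chi4_one,
          Int.cast_one]
      map_mul' := fun γ γ' => by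
        show ((chi4 (((γ * γ' : Gamma0 4) : SL(2, ℤ)) 1 1) : ℤ) : ℂ) = _
        rw [chi4_mul_entry, Int.cast_mul] }
  exact ⟨φ.toHomUnits, fun γ => rfl⟩

end Fermat.Agent.Lib.EtaUnit
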