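/-
Lib/EtaUnit (architect helper213).  TASK EU-22.
SKELETON FILE: statements are frozen interfaces; the task owner replaces every `sorry`.
-/
import Fermat.Agent.Lib.EtaUnit.G4.Defs

set_option autoImplicit false

namespace Fermat.Agent.Lib.EtaUnit

open UpperHalfPlane
open scoped Real

/-- `0 < im (-1 / w)` for `w` in the upper half plane. -/
theorem g4aux_im_neg_one_div_pos (w : ℂ) (hw : 0 < w.im) : 0 < (-1 / w).im := by
  have hw0 : w ≠ 0 := by
    rintro rfl
    simp at hw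
  have h : (-1 / w).im = w.im / Complex.normSq w := by
    rw [neg_div, one_div, Complex.neg_im, Complex.inv_im]
    ring
  rw [h]
  exact div_pos hw (Complex.normSq_pos.2 hw0)

/-- (`eta_add_one` at `z`, twice at `2 z`, four times at `4 z`: the factor is
`exp (2 π i (20 - 4 - 16) / 24) = 1`.) -/
theorem G4c_add_one (z : ℂ) : G4c (z + 1) = G4c z := by
  have hε : Complex.exp (2 * π * Complex.I / 24) ≠ 0 := Complex.exp_ne_zero _
  have h2 : ModularForm.eta (2 * (z + 1))
      = Complex.exp (2 * π * Complex.I / 24) ^ 2 * ModularForm.eta (2 * z) := by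
    have e : 2 * (z + 1) = 2 * z + 1 + 1 := by ring
    rw [e, eta_add_one, eta_add_one]
    ring
  have h4 : ModularForm.eta (4 * (z + 1))
      = Complex.exp (2 * π * Complex.I / 24) ^ 4 * ModularForm.eta (4 * z) := by
    have e : 4 * (z + 1) = 4 * z + 1 + 1 + 1 + 1 := by ring
    rw [e, eta_add_one, eta_add_one, eta_add_one, eta_add_one]
    ring
  unfold G4c
  rw [h2, h4, eta_add_one]
  generalize Complex.exp (2 * π * Complex.I / 24) = ε at *
  have e1 : (ε ^ 2 * ModularForm.eta (2 * z)) ^ 10 = ε ^ 20 * ModularForm.eta (2 * z) ^ 10 := by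
    ring
  have e2 : (ε * ModularForm.eta z) ^ 4 * (ε ^ 4 * ModularForm.eta (4 * z)) ^ 4
      = ε ^ 20 * (ModularForm.eta z ^ 4 * ModularForm.eta (4 * z) ^ 4) := by
    ring
  rw [e1, e2, mul_div_mul_left _ _ (pow_ne_zero 20 hε)]

/-- (`eta_sq_neg_inv` at `4 z`, `2 z`, `z`: `2 * (-1 / (4 z)) = -1 / (2 z)`, `4 * (-1 / (4 z)) = -1 / z`;
`(-i 2 z)⁵ / ((-i 4 z)² (-i z)²) = -2 i z`.) -/
theorem G4c_fricke (z : ℂ) (hz : 0 < z.im) :
    G4c (-1 / (4 * z)) = -2 * Complex.I * z * G4c z := by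
  have hz0 : z ≠ 0 := by
    rintro rfl
    simp at hz
  have h2im : 0 < (2 * z).im := by
    have : (2 * z).im = 2 * z.im := by simp
    rw [this]; positivity
  have h4im : 0 < (4 * z).im := by
    have : (4 * z).im = 4 * z.im := by simp
    rw [this]; positivity
  have a1 := eta_sq_neg_inv z hz
  have a2 := eta_sq_neg_inv (2 * z) h2im
  have a4 := eta_sq_neg_inv (4 * z) h4im
  have e2 : 2 * (-1 / (4 * z)) = -1 / (2 * z) := by
    field_simp
    ring
  have e4 : 4 * (-1 / (4 * z)) = -1 / z := by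
    field_simp
  unfold G4c
  rw [e2, e4]
  have b2 : ModularForm.eta (-1 / (2 * z)) ^ 10
      = (-Complex.I * (2 * z)) ^ 5 * ModularForm.eta (2 * z) ^ 10 := by
    calc ModularForm.eta (-1 / (2 * z)) ^ 10 = (ModularForm.eta (-1 / (2 * z)) ^ 2) ^ 5 := by ring
      _ = _ := by rw [a2]; ring
  have b4 : ModularForm.eta (-1 / (4 * z)) ^ 4
      = (-Complex.I * (4 * z)) ^ 2 * ModularForm.eta (4 * z) ^ 4 := by
    calc ModularForm.eta (-1 / (4 * z)) ^ 4 = (ModularForm.eta (-1 / (4 * z)) ^ 2) ^ 2 := by ring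
      _ = _ := by rw [a4]; ring
  have b1 : ModularForm.eta (-1 / z) ^ 4
      = (-Complex.I * z) ^ 2 * ModularForm.eta z ^ 4 := by
    calc ModularForm.eta (-1 / z) ^ 4 = (ModularForm.eta (-1 / z) ^ 2) ^ 2 := by ring
      _ = _ := by rw [a1]; ring
  rw [b2, b4, b1]
  have hI4 : Complex.I ^ 4 = 1 := Complex.I_pow_four
  have c1 : (-Complex.I * (2 * z)) ^ 5 * ModularForm.eta (2 * z) ^ 10
      = (16 * z ^ 4) * (-2 * Complex.I * z * ModularForm.eta (2 * z) ^ 10) := by
    have : (-Complex.I * (2 * z)) ^ 5 = -(Complex.I ^ 4 * Complex.I) * 32 * z ^ 5 := by ring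
    rw [this, hI4]
    ring
  have c2 : (-Complex.I * (4 * z)) ^ 2 * ModularForm.eta (4 * z) ^ 4
        * ((-Complex.I * z) ^ 2 * ModularForm.eta z ^ 4)
      = (16 * z ^ 4) * (ModularForm.eta z ^ 4 * ModularForm.eta (4 * z) ^ 4) := by
    have : (-Complex.I * (4 * z)) ^ 2 * ModularForm.eta (4 * z) ^ 4
        * ((-Complex.I * z) ^ 2 * ModularForm.eta z ^ 4)
        = Complex.I ^ 4 * (16 * z ^ 4)
          * (ModularForm.eta z ^ 4 * ModularForm.eta (4 * z) ^ 4) := by ring
    rw [this, hI4, one_mul]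
  have h16 : (16 * z ^ 4 : ℂ) ≠ 0 := mul_ne_zero (by norm_num) (pow_ne_zero 4 hz0)
  rw [c1, c2, mul_div_mul_left _ _ h16, mul_div_assoc]

/-- (`z / (4 z + 1) = -1 / (4 z')` with `z' = -1 / (4 z) - 1`, `0 < z'.im`; apply `G4c_fricke` at `z'`,
`G4c_add_one`, `G4c_fricke` at `z`.) -/
theorem G4c_U (z : ℂ) (hz : 0 < z.im) : G4c (z / (4 * z + 1)) = (4 * z + 1) * G4c z := by
  have hz0 : z ≠ 0 := by
    rintro rfl
    simp at hz
  have h4im : 0 < (4 * z).im := by
    have : (4 * z).im = 4 * z.im := by simp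
    rw [this]; positivity
  have h41 : 4 * z + 1 ≠ 0 := by
    intro h
    have : (4 * z + 1).im = 0 := by rw [h]; simp
    have h' : (4 * z + 1).im = (4 * z).im := by simp
    rw [h'] at this
    exact h4im.ne' this
  have him : 0 < (-1 / (4 * z) - 1).im := by
    have : (-1 / (4 * z) - 1).im = (-1 / (4 * z)).im := by simp
    rw [this]
    exact g4aux_im_neg_one_div_pos _ h4im
  have e : z / (4 * z + 1) = -1 / (4 * (-1 / (4 * z) - 1)) := by
    have h1 : 4 * (-1 / (4 * z) - 1) = -(4 * z + 1) / z := by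
      field_simp
      ring
    rw [h1, div_div_eq_mul_div, neg_one_mul, neg_div_neg_eq]
  have s : G4c (-1 / (4 * z) - 1) = G4c (-1 / (4 * z)) := by
    rw [← G4c_add_one (-1 / (4 * z) - 1), sub_add_cancel]
  rw [e, G4c_fricke _ him, s, G4c_fricke z hz]
  have hI : Complex.I * Complex.I = -1 := Complex.I_mul_I
  have : -2 * Complex.I * (-1 / (4 * z) - 1) * (-2 * Complex.I * z * G4c z)
      = (Complex.I * Complex.I) * (4 * ((-1 / (4 * z) - 1) * z)) * G4c z := by ring
  rw [this, hI]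
  have h2 : (-1 / (4 * z) - 1) * z = -(4 * z + 1) / 4 := by
    field_simp
    ring
  rw [h2]
  ring

end Fermat.Agent.Lib.EtaUnit
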