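/-
Lib/EtaUnit (architect helper213).  TASK EU-24.
SKELETON FILE: statements are frozen interfaces; the task owner replaces every `sorry`.
-/
import Fermat.Agent.Lib.EtaUnit.G4.Fricke
import Fermat.Agent.Lib.EtaUnit.G4.Chi
import Fermat.Agent.Lib.EtaUnit.Aut
import Fermat.Agent.Lib.EtaUnit.Eta.QuotExp
import Fermat.Agent.Lib.EtaUnit.Eta.QuotCusp

set_option autoImplicit false

namespace Fermat.Agent.Lib.EtaUnit

open UpperHalfPlane CongruenceSubgroup
open scoped MatrixGroups Manifold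

theorem G4_eq_etaQuot : G4 = etaQuot ({1, 2, 4} : Finset ℕ) (fun i => i) r4 := by
  funext τ
  have h1 : (1 : ℕ) ∉ ({2, 4} : Finset ℕ) := by decide
  have h2 : (2 : ℕ) ∉ ({4} : Finset ℕ) := by decide
  rw [etaQuot, Finset.prod_insert h1, Finset.prod_insert h2, Finset.prod_singleton, G4, G4c]
  have e1 : r4 1 = -4 := by decide
  have e2 : r4 2 = 10 := by decide
  have e4 : r4 4 = -4 := by decide
  rw [e1, e2, e4]
  have z1 : ∀ a : ℂ, a ^ (-4 : ℤ) = (a ^ 4)⁻¹ := by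
    intro a
    rw [zpow_neg]
    norm_cast
  have z2 : ∀ a : ℂ, a ^ (10 : ℤ) = a ^ 10 := by
    intro a
    norm_cast
  rw [z1, z1, z2, div_eq_mul_inv, mul_inv]
  push_cast
  rw [one_mul]
  ring

theorem G4Main.coe_T_smul (τ : ℍ) : ((ModularGroup.T • τ : ℍ) : ℂ) = τ + 1 := by
  rw [UpperHalfPlane.modular_T_smul, UpperHalfPlane.coe_vadd]
  push_cast
  ring

theorem G4Main.coe_Umat_smul (τ : ℍ) :
    ((Umat ((4 : ℕ) : ℤ) • τ : ℍ) : ℂ) = (τ : ℂ) / (4 * τ + 1) := by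
  rw [UpperHalfPlane.coe_specialLinearGroup_apply]
  simp [Umat]

theorem G4Main.denom_Umat (τ : ℍ) : denom (Umat ((4 : ℕ) : ℤ)) τ = 4 * (τ : ℂ) + 1 := by
  rw [ModularGroup.denom_apply]
  simp [Umat]

/-- (`aut_of_generators 4` with `k = 1`, `ψ` from `exists_psi4`; `G4c_add_one`, `G4c_U`;
`((T • τ : ℍ) : ℂ) = τ + 1`, `((Umat 4 • τ : ℍ) : ℂ) = τ / (4 τ + 1)`, `denom (Umat 4) τ = 4 τ + 1`.) -/
theorem G4_aut (γ : SL(2, ℤ)) (hγ : γ ∈ Gamma0 4) (τ : ℍ) :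
    G4 (γ • τ) = (chi4 (γ 1 1) : ℂ) * denom γ τ * G4 τ := by
  obtain ⟨ψ, hψ⟩ := exists_psi4
  have hone : ((chi4 1 : ℤ) : ℂ) = 1 := by rw [chi4_one]; norm_num
  have key := aut_of_generators 4 (by norm_num) (by norm_num) G4 1 ψ
    (fun τ => by
      rw [hψ]
      have h11 : ((⟨ModularGroup.T, T_mem_Gamma0 4⟩ : Gamma0 4) : SL(2, ℤ)) 1 1 = 1 := by
        simp [ModularGroup.T]
      rw [h11, hone, one_mul, G4, G4, G4Main.coe_T_smul, G4c_add_one])
    (by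
      rw [hψ]
      have h11 : ((⟨-1, neg_one_mem_Gamma0 4⟩ : Gamma0 4) : SL(2, ℤ)) 1 1 = -1 := by
        simp
      rw [h11, chi4_neg_one]
      norm_num)
    (fun τ => by
      rw [hψ]
      have h11 : ((⟨Umat ((4 : ℕ) : ℤ), Umat_mem_Gamma0 4⟩ : Gamma0 4) : SL(2, ℤ)) 1 1 = 1 := by
        simp [Umat]
      rw [h11, hone, one_mul, zpow_one, G4Main.denom_Umat, G4, G4, G4Main.coe_Umat_smul,
        G4c_U _ τ.im_pos])
  have := key ⟨γ, hγ⟩ τ
  rw [hψ, zpow_one] at this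
  exact this

/-- (`G4_eq_etaQuot`, `mdiff_etaQuot`, `etaQuot_ne_zero`, `G4_aut`, `chi4_*`,
`exists_exp_etaQuot` with `n = 0`, `exists_cusp_etaQuot` with `k = 1`.) -/
theorem exists_isW1_G4 : ∃ Gs : PowerSeries ℤ, IsW1 4 chi4 G4 Gs := by
  have hD : ∀ i ∈ ({1, 2, 4} : Finset ℕ), 0 < (fun i : ℕ => i) i := by
    intro i hi
    simp only [Finset.mem_insert, Finset.mem_singleton] at hi
    rcases hi with rfl | rfl | rfl <;> norm_num
  obtain ⟨P, hP1, hP⟩ := exists_exp_etaQuot (s := ({1, 2, 4} : Finset ℕ)) (D := fun i => i) r4 hD 0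
    (by decide)
  refine ⟨P, ?_⟩
  refine
    { mdiff := ?_
      ne_zero := ?_
      aut := G4_aut
      chi_one := chi4_one
      chi_mul := chi4_mul
      chi_per := chi4_per
      chi_sq := chi4_sq
      const := hP1
      exp := ?_
      cusp := ?_ }
  · rw [G4_eq_etaQuot]
    exact mdiff_etaQuot r4 hD
  · intro τ
    rw [G4_eq_etaQuot]
    exact etaQuot_ne_zero r4 hD τ
  · rw [G4_eq_etaQuot]
    have h1 : HahnSeries.single ((0 : ℕ) : ℤ) (1 : Fermat.Agent.S24.Kbar) = 1 := by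
      rw [Nat.cast_zero]
      rfl
    rwa [h1, one_mul] at hP
  · intro γ
    obtain ⟨M, hM, s', hs'⟩ := exists_cusp_etaQuot (s := ({1, 2, 4} : Finset ℕ)) (D := fun i => i)
      r4 hD 1 (by decide) γ
    refine ⟨M, hM, s', ?_⟩
    rw [G4_eq_etaQuot]
    have e : (fun τ : ℍ => etaQuot ({1, 2, 4} : Finset ℕ) (fun i => i) r4 (γ • τ) / denom γ τ) =
        fun τ : ℍ => etaQuot ({1, 2, 4} : Finset ℕ) (fun i => i) r4 (γ • τ) *
          denom γ τ ^ (-1 : ℤ) := by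
      funext τ
      rw [zpow_neg_one, div_eq_mul_inv]
    rw [e]
    exact hs'

/-- The `q`-expansion of `G₄`. -/
noncomputable def G4s : PowerSeries ℤ := exists_isW1_G4.choose

theorem isW1_G4 : IsW1 4 chi4 G4 G4s := exists_isW1_G4.choose_spec

end Fermat.Agent.Lib.EtaUnit
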